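import Mathlib
import Fermat.Prelude.Def_FreyPackage_EigenformResidualAttachment
import Fermat.Prelude.Def_GaloisRep_Residual
import Fermat.Agent.S13.Final
import Fermat.Agent.S13.FreyCard

/-!
# S42 from (the statement of) S29

`P.EigenformResidualAttachmentAt M` follows from the existence of residual Galois representations
attached to normalised eigenforms of level `M` (over the residue fields `ℤ̄ ⧸ 𝔪`), since the
mod `p` representation of the Frey curve has finite level.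
-/

set_option autoImplicit false
set_option linter.unusedSectionVars false
set_option linter.style.haveILetI false

namespace Fermat.Agent.S42

open Polynomial WeierstrassCurve WeierstrassCurve.Affine.Point

local notation "Qb" => AlgebraicClosure ℚ
local notation "GQ" => (AlgebraicClosure ℚ ≃ₐ[ℚ] AlgebraicClosure ℚ)
local notation "Zbar" => integralClosure ℤ ℂ

/-! ### trace and determinant from the characteristic polynomial in dimension two -/

section TraceDet

variable {K : Type*} [Field K] {V : Type*} [AddCommGroup V] [Module K V]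

theorem trace_det_of_charpoly [Module.Finite K V] (hV : Module.finrank K V = 2)
    (f : Module.End K V) (t d : K)
    (h : LinearMap.charpoly f = X ^ 2 - C t * X + C d) :
    LinearMap.trace K V f = t ∧ LinearMap.det f = d := by
  let b : Module.Basis (Fin 2) K V := Module.finBasisOfFinrankEq K V hV
  have h1 : (LinearMap.toMatrix b b f).charpoly = X ^ 2 - C t * X + C d := by
    rw [LinearMap.charpoly_toMatrix, h]
  rw [Matrix.charpoly_fin_two] at h1
  have e1 := congrArg (fun q : K[X] => q.coeff 1) h1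
  have e0 := congrArg (fun q : K[X] => q.coeff 0) h1
  simp only [coeff_add, coeff_sub, coeff_X_pow, coeff_C_mul, coeff_X_one, coeff_C_zero,
    coeff_X_zero, mul_one, mul_zero] at e1 e0
  simp at e1 e0
  refine ⟨?_, ?_⟩
  · rw [LinearMap.trace_eq_matrix_trace K b f]
    exact e1
  · exact e0

end TraceDet

/-! ### Galois closure of a finite level -/

theorem exists_galois_level (L : IntermediateField ℚ Qb) [FiniteDimensional ℚ L] :
    ∃ L' : IntermediateField ℚ Qb, L ≤ L' ∧ FiniteDimensional ℚ L' ∧ IsGalois ℚ L' := by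
  haveI : Algebra.IsAlgebraic ℚ Qb := AlgebraicClosure.isAlgebraic ℚ
  haveI : IsAlgClosure ℚ Qb := ⟨inferInstance, inferInstance⟩
  haveI : Normal ℚ Qb := IsAlgClosure.normal ℚ Qb
  refine ⟨IntermediateField.normalClosure ℚ L Qb, IntermediateField.le_normalClosure L,
    inferInstance, ?_⟩
  haveI : Normal ℚ (IntermediateField.normalClosure ℚ L Qb) := normalClosure.normal ℚ L Qb
  exact ⟨⟩

theorem fixes_of_mem_ker (L : IntermediateField ℚ Qb) [Normal ℚ L] (σ : GQ)
    (h : σ ∈ (AlgEquiv.restrictNormalHom (F := ℚ) (K₁ := Qb) L).ker) :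
    ∀ x ∈ L, σ x = x := by
  rw [MonoidHom.mem_ker] at h
  intro x hx
  have := AlgEquiv.restrictNormal_commutes σ L ⟨x, hx⟩
  rw [show σ.restrictNormal L = AlgEquiv.restrictNormalHom L σ from rfl, h] at this
  exact this.symm

/-! ### the glue -/

theorem attachment_of_residual (P : FreyPackage) (M : ℕ)
    (H : ∀ (g : CuspForm (CongruenceSubgroup.Gamma0 M) 2), g.IsNormalizedEigenform →
      ∀ (k : Type) [Field k] [CharP k P.p] (φ : Zbar →+* k),
        ∃ ρ : ResidualGaloisRep k, ρ.IsAttachedTo g φ) :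
    P.EigenformResidualAttachmentAt M := by
  classical
  intro g hg 𝔪 h𝔪 hp𝔪
  have hp : P.p.Prime := P.pp
  letI : Field (Zbar ⧸ 𝔪) := Ideal.Quotient.field 𝔪
  haveI : CharP (Zbar ⧸ 𝔪) P.p := by
    rw [CharP.charP_iff_prime_eq_zero hp]
    have : ((P.p : ℕ) : Zbar ⧸ 𝔪) = Ideal.Quotient.mk 𝔪 ((P.p : ℕ) : Zbar) := by
      simp
    rw [this, Ideal.Quotient.eq_zero_iff_mem]
    exact hp𝔪
  obtain ⟨ρ, hρ⟩ := H g hg (Zbar ⧸ 𝔪) (Ideal.Quotient.mk 𝔪)
  -- the levels
  obtain ⟨L₁, hL₁f, hL₁⟩ := ρ.factorsThroughFiniteLevel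
  haveI : Finite (Fermat.Agent.S13.FreyV P) := Fermat.Agent.S13.frey_torsion_finite P
  obtain ⟨L₂, hL₂f, hL₂⟩ := Fermat.Agent.S13.exists_open P
  haveI := hL₁f
  haveI := hL₂f
  haveI : FiniteDimensional ℚ (L₁ ⊔ L₂ : IntermediateField ℚ Qb) :=
    IntermediateField.finiteDimensional_sup L₁ L₂
  obtain ⟨L, hLle, hLf, hLg⟩ := exists_galois_level (L₁ ⊔ L₂)
  haveI := hLf
  haveI := hLg
  haveI : NumberField L := NumberField.mk
  refine ⟨Zbar ⧸ 𝔪, inferInstance, ZMod.algebra (Zbar ⧸ 𝔪) P.p, ρ.V, inferInstance, inferInstance,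
    ρ.ρ, Ideal.Quotient.mk 𝔪, L, inferInstance, inferInstance, inferInstance, inferInstance,
    inferInstance, ?_, ρ.finrank_eq, ?_, ?_, ?_⟩
  · rw [Ideal.mk_ker]
  · intro σ hσ
    have hfix := fixes_of_mem_ker L σ hσ
    refine ⟨?_, ?_⟩
    · show σ ∈ (galoisRepModuleEnd ℚ P.freyCurve P.p).ker
      rw [MonoidHom.mem_ker]
      apply LinearMap.ext
      intro x
      rw [galoisRepModuleEnd_apply]
      refine hL₂ σ ?_ x
      rw [IntermediateField.mem_fixingSubgroup_iff]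
      intro y hy
      exact hfix y (hLle ((le_sup_right : L₂ ≤ L₁ ⊔ L₂) hy))
    · show σ ∈ ρ.ρ.ker
      rw [MonoidHom.mem_ker]
      exact hL₁ σ fun y hy => hfix y (hLle ((le_sup_left : L₁ ≤ L₁ ⊔ L₂) hy))
  · intro ℓ hℓ hℓM hℓp A hA τ hτ
    have hℓ0 : ((ℓ : ℕ) : Zbar ⧸ 𝔪) ≠ 0 := by
      intro h0
      have := (CharP.cast_eq_zero_iff (Zbar ⧸ 𝔪) P.p ℓ).1 h0
      exact hℓp ((Nat.prime_dvd_prime_iff_eq hp hℓ).1 this).symm
    obtain ⟨a, ha, hchar⟩ := hρ ℓ hℓ hℓM hℓ0 A hA τ hτ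
    exact ⟨a, ha, (trace_det_of_charpoly ρ.finrank_eq (ρ.ρ τ) _ _ hchar).1⟩
  · intro ℓ hℓ hℓM hℓp A hA τ hτ
    have hℓ0 : ((ℓ : ℕ) : Zbar ⧸ 𝔪) ≠ 0 := by
      intro h0
      have := (CharP.cast_eq_zero_iff (Zbar ⧸ 𝔪) P.p ℓ).1 h0
      exact hℓp ((Nat.prime_dvd_prime_iff_eq hp hℓ).1 this).symm
    obtain ⟨a, ha, hchar⟩ := hρ ℓ hℓ hℓM hℓ0 A hA τ hτ
    exact (trace_det_of_charpoly ρ.finrank_eq (ρ.ρ τ) _ _ hchar).2

/-- **S42 from the statement of S29.** -/
theorem result_of_S29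
    (h29 : ∀ {N : ℕ} {g : CuspForm (CongruenceSubgroup.Gamma0 N) 2} (_ : g.IsNormalizedEigenform)
      {p : ℕ} (_ : p.Prime) {k : Type} [Field k] [CharP k p] (φ : Zbar →+* k),
      ∃ ρ : ResidualGaloisRep k, ρ.IsAttachedTo g φ ∧
        ∀ ℓ : ℕ, ℓ.Prime → ¬ ℓ ∣ N * p → ρ.IsUnramifiedAt ℓ)
    (P : FreyPackage) : ∀ M : ℕ, 0 < M → P.EigenformResidualAttachmentAt M := by
  intro M _
  refine attachment_of_residual P M fun g hg k _ _ φ => ?_
  obtain ⟨ρ, hρ, -⟩ := h29 hg P.pp φ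
  exact ⟨ρ, hρ⟩

end Fermat.Agent.S42
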